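import Fermat.Agent.S52.B.Interfaces
import Fermat.Agent.S52.B3.H531.B3Goal
import Fermat.Agent.S52.B3.H240.Fam

/-!
# S52 / B3 (helper352): `familyHIT : FamilyHIT`

Adapter from the landed pieces
* `Fermat.Agent.S52.B3.H531.b3Goal : B3Goal` (Hilbert irreducibility by hand, helper531),
* `Fermat.Agent.S52.B3.H240.noPolyRoot_fam` (generic irreducibility for the family, helper240)

to the frozen B-level interface `Fermat.Agent.S52.B.FamilyHIT` (helper52).  The only new content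
is the bridge `homEval (famC4 c₄ c₆) 20 M n = C4h c₄ c₆ M n` (and the same for `C6`).
-/

set_option autoImplicit false

open Polynomial

namespace Fermat.Agent.S52.B3.H352

open Fermat.Agent.S52.Fam Fermat.Agent.S52.B Fermat.Agent.S52.B3

theorem eval_C4_poly (a b τ : ℚ) : (C4 (C a) (C b) (X : ℚ[X])).eval τ = C4 a b τ := by
  have h := Fermat.Agent.S52.B.map_C4 (Polynomial.evalRingHom τ) (C a) (C b) (X : ℚ[X])
  simpa using h

theorem eval_C6_poly (a b τ : ℚ) : (C6 (C a) (C b) (X : ℚ[X])).eval τ = C6 a b τ := by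
  have h := Fermat.Agent.S52.B.map_C6 (Polynomial.evalRingHom τ) (C a) (C b) (X : ℚ[X])
  simpa using h

theorem homEval_famC4 (c₄ c₆ M n : ℤ) (hn : n ≠ 0) :
    homEval (H240.famC4 c₄ c₆) 20 M n = C4h c₄ c₆ M n := by
  have hnQ : (n : ℚ) ≠ 0 := by exact_mod_cast hn
  apply Int.cast_injective (α := ℚ)
  rw [H531.homEval_eq_homEval,
    Fermat.Agent.S52.H531.homEval_eq (K := ℚ) _ 20 (H240.natDegree_famC4_le c₄ c₆) M n hnQ,
    H240.famC4_map, eval_C4_poly]
  have e := map_C4h (Int.castRingHom ℚ) c₄ c₆ M n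
  simp only [eq_intCast] at e
  rw [e, C4h_eq_pow_mul _ _ _ hnQ]

theorem homEval_famC6 (c₄ c₆ M n : ℤ) (hn : n ≠ 0) :
    homEval (H240.famC6 c₄ c₆) 30 M n = C6h c₄ c₆ M n := by
  have hnQ : (n : ℚ) ≠ 0 := by exact_mod_cast hn
  apply Int.cast_injective (α := ℚ)
  rw [H531.homEval_eq_homEval,
    Fermat.Agent.S52.H531.homEval_eq (K := ℚ) _ 30 (H240.natDegree_famC6_le c₄ c₆) M n hnQ,
    H240.famC6_map, eval_C6_poly]
  have e := map_C6h (Int.castRingHom ℚ) c₄ c₆ M n
  simp only [eq_intCast] at e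
  rw [e, C6h_eq_pow_mul _ _ _ hnQ]

/-- **Piece B3** in the frozen B-level form. -/
theorem familyHIT : Fermat.Agent.S52.B.FamilyHIT := by
  intro W hΔ _hW h3 M hM
  have hne : W.c₄ ^ 3 ≠ W.c₆ ^ 2 := by
    intro h
    have := W.c_relation
    rw [h, sub_self] at this
    have h0 : W.Δ = 0 := by
      rcases mul_eq_zero.mp this with h' | h'
      · norm_num at h'
      · exact h'
    exact hΔ h0
  have hMpos : 0 < M.toNat := by omega
  have hMcast : ((M.toNat : ℕ) : ℤ) = M := Int.toNat_of_nonneg (by omega)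
  obtain ⟨n, _, hnpos, hnmod, hirr⟩ :=
    H531.b3Goal W hΔ h3 (H240.famC4 W.c₄ W.c₆) (H240.famC6 W.c₄ W.c₆)
      (H240.natDegree_famC4_le _ _) (H240.natDegree_famC6_le _ _)
      (H240.famC4_coeff_zero _ _) (H240.famC6_coeff_zero _ _)
      (H240.noPolyRoot_fam _ _ hne) M.toNat hMpos M.toNat hMpos 1 1
  have hn0 : (n : ℤ) ≠ 0 := by exact_mod_cast hnpos.ne'
  refine ⟨(n : ℤ), ?_, ?_⟩
  · have := (Int.natCast_modEq_iff (a := n) (b := 1) (n := M.toNat)).mpr hnmod
    rw [hMcast] at this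
    simpa using this
  · intro W' hΔ' hc4 hc6
    apply hirr W' _ _ hΔ'
    · rw [hMcast, homEval_famC4 _ _ _ _ hn0]; exact hc4
    · rw [hMcast, homEval_famC6 _ _ _ _ hn0]; exact hc6

end Fermat.Agent.S52.B3.H352
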